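/-
S18 / wave 4, leaf C5 (package P10b) of the route of report #1073: the POLE BOUND
(`approx_mem_disc` of the skeleton), helper38.

The statement here is CONDITIONAL on the clearing lemma (given as the hypotheses `hclear`,
`hclear'`) and does not mention the `Setup` structure: only the facts that are really used
(`O ∩ K = A`, equality of value groups, rank one, `x⁻¹ ∈ O`) are hypotheses.  The predicates
`InDisc`, `discRing` below have the same bodies as those of the skeleton, so the skeleton leaf is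
obtained by `exact`.

Proof.  Fix a residue disc and a one-unit `g_b` with `m * ord_P g_b = ord_P u` on it.  Then
`u' = u / g_b ^ m` is a one-unit which is a unit at every place of the disc, so it lies in the ring
`S` of Gauss-integral functions without poles on the disc; Newton's iteration inside `S` gives a
one-unit `z ∈ S` with `z ^ m ≡ u'` to any prescribed precision.  By uniqueness of approximate
roots, `g = g_b * z * (1 + δ e)` with `δ` as small as we like, and `∑ h_j (g_b z) ^ j` is the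
required pole-free approximation of `∑ h_j g ^ j`.
-/
import Mathlib
import Fermat.Prelude.Def_AlgebraicCurve_DivisorClassGroup
import Fermat.Agent.S24.H52.AddVal

set_option autoImplicit false

open AlgebraicCurve

noncomputable section

namespace Fermat.Agent.S18.H38

/-! ### Newton iteration in a commutative ring in which `m` is invertible -/

theorem one_add_mul_pow {R : Type*} [CommRing R] (t a : R) (k : ℕ) :
    ∃ a' : R, (1 + t * a) ^ k = 1 + t * a' := by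
  induction k with
  | zero => exact ⟨0, by ring⟩
  | succ k ih =>
    obtain ⟨a', ha'⟩ := ih
    exact ⟨a' + a + t * a * a', by rw [pow_succ, ha']; ring⟩

/-- Approximate `m`-th roots of `1 + t` to the order `t ^ (N + 1)`, in any commutative ring in
which `m` is invertible (no locality needed). -/
theorem exists_newton {R : Type*} [CommRing R] (t m' : R) (m : ℕ) (hm : (m : R) * m' = 1)
    (N : ℕ) : ∃ g a e : R, g = 1 + t * a ∧ g ^ m = 1 + t + t ^ (N + 1) * e := by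
  induction N with
  | zero => exact ⟨1, 0, -1, by ring, by ring⟩
  | succ N ih =>
    obtain ⟨g, a, e, hga, hge⟩ := ih
    obtain ⟨a', ha'⟩ : ∃ a' : R, g ^ (m - 1) = 1 + t * a' := by
      rw [hga]; exact one_add_mul_pow t a (m - 1)
    obtain ⟨k, hk⟩ := Polynomial.powAddExpansion g (-(t ^ (N + 1) * e * m')) m
    refine ⟨g + -(t ^ (N + 1) * e * m'), a - t ^ N * e * m',
      -(e * a') + k * t ^ N * e ^ 2 * m' ^ 2, ?_, ?_⟩
    · rw [hga]; ring
    · linear_combination hk + hge + ((m : R) * (-(t ^ (N + 1) * e * m'))) * ha'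
        - t ^ (N + 1) * e * (1 + t * a') * hm

/-! ### One-units of a valuation subring -/

section Val

variable {F : Type*} [Field F] {O : ValuationSubring F}

theorem mem_of_sub_one {f : F} (hf : f - 1 ∈ O.nonunits) : f ∈ O := by
  have h : f = (f - 1) + 1 := by ring
  rw [h]; exact add_mem (ValuationSubring.nonunits_subset hf) (one_mem O)

theorem val_eq_one {f : F} (hf : f - 1 ∈ O.nonunits) : O.valuation f = 1 := by
  have h : f = 1 + (f - 1) := by ring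
  rw [h]; exact O.valuation.map_one_add_of_lt hf

theorem ne_zero_of_sub_one {f : F} (hf : f - 1 ∈ O.nonunits) : f ≠ 0 := by
  intro h
  have h1 := val_eq_one hf
  rw [h, map_zero] at h1
  exact zero_ne_one h1

theorem inv_mem_of_sub_one {f : F} (hf : f - 1 ∈ O.nonunits) : f⁻¹ ∈ O := by
  rw [← O.valuation_le_one_iff, map_inv₀, val_eq_one hf, inv_one]

theorem mul_mem_nonunits {a b : F} (ha : a ∈ O.nonunits) (hb : b ∈ O) : a * b ∈ O.nonunits := by
  rw [ValuationSubring.mem_nonunits_iff] at ha ⊢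
  rw [map_mul]
  have hb' := (O.valuation_le_one_iff b).mpr hb
  calc O.valuation a * O.valuation b ≤ O.valuation a * 1 := mul_le_mul' le_rfl hb'
    _ = O.valuation a := mul_one _
    _ < 1 := ha

theorem oneUnit_mul {f g : F} (hf : f - 1 ∈ O.nonunits) (hg : g - 1 ∈ O.nonunits) :
    f * g - 1 ∈ O.nonunits := by
  have h : f * g - 1 = (f - 1) * g + (g - 1) := by ring
  rw [h]; exact add_mem (mul_mem_nonunits hf (mem_of_sub_one hg)) hg

theorem oneUnit_inv {f : F} (hf : f - 1 ∈ O.nonunits) : f⁻¹ - 1 ∈ O.nonunits := by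
  have h0 := ne_zero_of_sub_one hf
  have h : f⁻¹ - 1 = -((f - 1) * f⁻¹) := by field_simp; ring
  rw [h]; exact neg_mem (mul_mem_nonunits hf (inv_mem_of_sub_one hf))

theorem oneUnit_pow {f : F} (hf : f - 1 ∈ O.nonunits) (k : ℕ) : f ^ k - 1 ∈ O.nonunits := by
  induction k with
  | zero => simp
  | succ k ih => rw [pow_succ]; exact oneUnit_mul ih hf

end Val

section Main

variable {K : Type*} [Field K] {A : ValuationSubring K} {F : Type*} [Field F] [Algebra K F]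
  {O : ValuationSubring F}

theorem algebraMap_mem_nonunits (hmem : ∀ a : K, algebraMap K F a ∈ O ↔ a ∈ A) {a : K} :
    algebraMap K F a ∈ O.nonunits ↔ a ∈ A.nonunits := by
  rw [ValuationSubring.mem_nonunits_iff_or, ValuationSubring.mem_nonunits_iff_or, ← map_inv₀,
    hmem, map_eq_zero]

/-- Uniqueness of approximate roots: a one-unit `y` with `y ^ m = 1 + t e`, `e ∈ O`, is
`1 + t e'` with `e' ∈ O`. -/
theorem eq_one_add_of_pow (hmem : ∀ a : K, algebraMap K F a ∈ O ↔ a ∈ A)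
    (m : ℕ) (hmK : (m : K) ≠ 0) (hm : ((m : K))⁻¹ ∈ A) (y t : F) (hy : y - 1 ∈ O.nonunits)
    (e : F) (he : e ∈ O) (h : y ^ m = 1 + t * e) : ∃ e' ∈ O, y = 1 + t * e' := by
  have hmF : (m : F) ≠ 0 := by
    have h1 := (algebraMap K F).injective.ne hmK
    rwa [map_natCast, map_zero] at h1
  have hmv : O.valuation (m : F) = 1 := by
    have h1 : O.valuation (m : F) ≤ 1 := (O.valuation_le_one_iff _).mpr (natCast_mem O m)
    have h2 : O.valuation ((m : F))⁻¹ ≤ 1 := by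
      rw [O.valuation_le_one_iff]
      have h3 := (hmem ((m : K))⁻¹).mpr hm
      rwa [map_inv₀, map_natCast] at h3
    rw [map_inv₀] at h2
    have h4 : O.valuation (m : F) ≠ 0 := (Valuation.ne_zero_iff _).mpr hmF
    have h5 : 1 ≤ O.valuation (m : F) := (inv_le_one₀ (zero_lt_iff.mpr h4)).mp h2
    exact le_antisymm h1 h5
  set w : F := ∑ i ∈ Finset.range m, y ^ i with hw
  have hwm : w - (m : F) ∈ O.nonunits := by
    have h1 : w - (m : F) = ∑ i ∈ Finset.range m, (y ^ i - 1) := by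
      rw [Finset.sum_sub_distrib, hw]; simp
    rw [h1]
    exact sum_mem fun i _ => oneUnit_pow hy i
  have hwv : O.valuation w = 1 := by
    have h1 : w = (m : F) + (w - (m : F)) := by ring
    rw [h1, Valuation.map_add_eq_of_lt_left, hmv]
    rw [hmv]; exact hwm
  have hw0 : w ≠ 0 := by
    intro h0; rw [h0, map_zero] at hwv; exact zero_ne_one hwv
  have hwinv : w⁻¹ ∈ O := by
    rw [← O.valuation_le_one_iff, map_inv₀, hwv, inv_one]
  refine ⟨e * w⁻¹, mul_mem he hwinv, ?_⟩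
  have hg : w * (y - 1) = y ^ m - 1 := geom_sum_mul y m
  have h1 : y - 1 = (y ^ m - 1) * w⁻¹ := by
    rw [← hg]; field_simp
  have h2 : y ^ m - 1 = t * e := by rw [h]; ring
  rw [h2] at h1
  linear_combination h1

/-- High powers of an element of `m_O` are divisible by any nonzero constant (rank one). -/
theorem exists_pow_eq (hmem : ∀ a : K, algebraMap K F a ∈ O ↔ a ∈ A)
    (hscale : ∀ f : F, f ≠ 0 →
      ∃ c : K, c ≠ 0 ∧ algebraMap K F c * f ∈ O ∧ (algebraMap K F c * f)⁻¹ ∈ O)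
    (harch : ∀ a c : K, a ∈ A.nonunits → c ≠ 0 → ∃ n : ℕ, a ^ n * c⁻¹ ∈ A)
    {t : F} (ht : t ∈ O.nonunits) {δ : K} (hδ : δ ≠ 0) :
    ∃ n : ℕ, ∀ k, n ≤ k → ∃ e ∈ O, t ^ k = algebraMap K F δ * e := by
  rcases eq_or_ne t 0 with rfl | ht0
  · exact ⟨1, fun k hk => ⟨0, zero_mem O, by rw [zero_pow (by omega), mul_zero]⟩⟩
  obtain ⟨c, hc, hct, hct'⟩ := hscale t ht0
  have hcF : algebraMap K F c ≠ 0 := by simpa using hc
  have hδF : algebraMap K F δ ≠ 0 := by simpa using hδ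
  have hcinv : c⁻¹ ∈ A.nonunits := by
    rw [← algebraMap_mem_nonunits hmem]
    have h1 : algebraMap K F c⁻¹ = t * (algebraMap K F c * t)⁻¹ := by
      rw [map_inv₀]; field_simp
    rw [h1]; exact mul_mem_nonunits ht hct'
  obtain ⟨n, hn⟩ := harch c⁻¹ δ hcinv hδ
  refine ⟨n, fun k hk => ⟨algebraMap K F (c⁻¹ ^ n * δ⁻¹ * c⁻¹ ^ (k - n)) *
    (algebraMap K F c * t) ^ k, ?_, ?_⟩⟩
  · exact mul_mem ((hmem _).mpr (mul_mem hn (pow_mem (ValuationSubring.nonunits_subset hcinv) _)))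
      (pow_mem hct _)
  · obtain ⟨j, rfl⟩ := Nat.exists_eq_add_of_le hk
    simp only [map_mul, map_pow, map_inv₀, Nat.add_sub_cancel_left, inv_pow]
    field_simp
    ring

theorem ord_nonneg_iff (P : Place K F) (f : F) : 0 ≤ P.ord f ↔ f ∈ P.toValuationSubring := by
  rcases eq_or_ne f 0 with rfl | hf
  · simp
  · exact (Fermat.Agent.S24.H52.mem_iff_ord_nonneg P hf).symm

/-- One term `s * (h_j * g_b ^ j)` is regular at a place `P` of the disc. -/
theorem term_mem (P : Place K F) {m : ℕ} (hm0 : m ≠ 0) {u gb : F} (hgb0 : gb ≠ 0)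
    (hgbord : (m : ℤ) * P.ord gb = P.ord u) (j : ℕ) (hj s : F) (B : ℤ)
    (hdiv : hj ≠ 0 → (m : ℤ) * B ≤ (m : ℤ) * P.ord hj + (j : ℤ) * P.ord u)
    (hsB : 0 ≤ P.ord s + B) :
    s * (hj * gb ^ j) ∈ P.toValuationSubring := by
  rcases eq_or_ne s 0 with rfl | hs0
  · simp
  rcases eq_or_ne hj 0 with rfl | hj0
  · simp
  have hgj : gb ^ j ≠ 0 := pow_ne_zero _ hgb0
  rw [← ord_nonneg_iff, P.ord_mul hs0 (mul_ne_zero hj0 hgj), P.ord_mul hj0 hgj,
    (Fermat.Agent.S24.H52.isAddVal_ord P).map_pow hgb0 j]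
  have hmpos : (0 : ℤ) < m := by exact_mod_cast Nat.pos_of_ne_zero hm0
  have h1 : (m : ℤ) * B ≤ (m : ℤ) * (P.ord hj + j * P.ord gb) := by
    calc (m : ℤ) * B ≤ (m : ℤ) * P.ord hj + (j : ℤ) * P.ord u := hdiv hj0
      _ = (m : ℤ) * (P.ord hj + j * P.ord gb) := by rw [← hgbord]; ring
  have h2 : B ≤ P.ord hj + j * P.ord gb := le_of_mul_le_mul_left h1 hmpos
  linarith

/-- On a disc `D` on which `u` has the divisor of `g_b ^ m`, every approximate `m`-th root `g` of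
`u` is `g_b * z * (1 + δ e)` with `z` a one-unit without zeros or poles on the disc. -/
theorem exists_disc_approx (hmem : ∀ a : K, algebraMap K F a ∈ O ↔ a ∈ A)
    (hscale : ∀ f : F, f ≠ 0 →
      ∃ c : K, c ≠ 0 ∧ algebraMap K F c * f ∈ O ∧ (algebraMap K F c * f)⁻¹ ∈ O)
    (harch : ∀ a c : K, a ∈ A.nonunits → c ≠ 0 → ∃ n : ℕ, a ^ n * c⁻¹ ∈ A)
    (m : ℕ) (hmK : (m : K) ≠ 0) (hm : ((m : K))⁻¹ ∈ A) (D : Place K F → Prop)
    (u : F) (hu : u - 1 ∈ O.nonunits) (gb : F) (hgb : gb - 1 ∈ O.nonunits)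
    (hgbord : ∀ P, D P → (m : ℤ) * P.ord gb = P.ord u) (δ : K) (hδ : δ ≠ 0)
    (g : F) (hg : g - 1 ∈ O.nonunits) (eα : F) (heα : eα ∈ O)
    (hgm : g ^ m = u + algebraMap K F δ * eα) :
    ∃ z : F, z - 1 ∈ O.nonunits ∧ (∀ P, D P → z ∈ P.toValuationSubring) ∧
      ∃ e ∈ O, algebraMap K F δ * e ∈ O.nonunits ∧
        g = gb * z * (1 + algebraMap K F δ * e) := by
  have hu0 := ne_zero_of_sub_one hu
  have hgb0 := ne_zero_of_sub_one hgb
  have hgbm : gb ^ m - 1 ∈ O.nonunits := oneUnit_pow hgb m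
  have hgbm0 := ne_zero_of_sub_one hgbm
  obtain ⟨u', hu'⟩ : ∃ u' : F, u' = u * (gb ^ m)⁻¹ := ⟨_, rfl⟩
  have hu'1 : u' - 1 ∈ O.nonunits := by rw [hu']; exact oneUnit_mul hu (oneUnit_inv hgbm)
  let S : Subring F :=
    O.toSubring ⊓ ⨅ P : {P : Place K F // D P}, P.1.toValuationSubring.toSubring
  have hSmem : ∀ f : F, f ∈ S ↔ f ∈ O ∧ ∀ P, D P → f ∈ P.toValuationSubring := by
    intro f
    simp only [S, Subring.mem_inf, Subring.mem_iInf, Subtype.forall,
      ValuationSubring.mem_toSubring]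
  have hu'S : u' ∈ S := by
    rw [hSmem]
    refine ⟨mem_of_sub_one hu'1, fun P hP => ?_⟩
    rw [← ord_nonneg_iff, hu', P.ord_mul hu0 (inv_ne_zero hgbm0), P.ord_inv,
      (Fermat.Agent.S24.H52.isAddVal_ord P).map_pow hgb0 m, hgbord P hP]
    simp
  have hmF : (m : F) ≠ 0 := by
    have h := (algebraMap K F).injective.ne hmK
    rwa [map_natCast, map_zero] at h
  have hm'S : ((m : F))⁻¹ ∈ S := by
    rw [hSmem]
    have h1 : ((m : F))⁻¹ = algebraMap K F ((m : K))⁻¹ := by rw [map_inv₀, map_natCast]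
    rw [h1]
    exact ⟨(hmem _).mpr hm, fun P _ => P.algebraMap_mem' _⟩
  obtain ⟨n', hn'⟩ := exists_pow_eq hmem hscale harch hu'1 hδ
  obtain ⟨y, a, e', hya, hye⟩ := exists_newton (⟨u' - 1, sub_mem hu'S (one_mem S)⟩ : S)
    ⟨((m : F))⁻¹, hm'S⟩ m (by
      apply Subtype.ext
      push_cast
      exact mul_inv_cancel₀ hmF) n'
  obtain ⟨e₁, he₁, hpow⟩ := hn' (n' + 1) (Nat.le_succ _)
  have hyaF : (y : F) = 1 + (u' - 1) * (a : F) := by
    have h := congrArg (Subtype.val : S → F) hya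
    push_cast at h
    exact h
  have hyeF : (y : F) ^ m = u' + (u' - 1) ^ (n' + 1) * (e' : F) := by
    have h := congrArg (Subtype.val : S → F) hye
    push_cast at h
    rw [h]; ring
  have haO : (a : F) ∈ O := ((hSmem _).mp a.2).1
  have he'O : (e' : F) ∈ O := ((hSmem _).mp e'.2).1
  have hz1 : (y : F) - 1 ∈ O.nonunits := by
    have h : (y : F) - 1 = (u' - 1) * (a : F) := by rw [hyaF]; ring
    rw [h]; exact mul_mem_nonunits hu'1 haO
  refine ⟨(y : F), hz1, fun P hP => ((hSmem _).mp y.2).2 P hP, ?_⟩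
  have hw1 : gb * (y : F) - 1 ∈ O.nonunits := oneUnit_mul hgb hz1
  have hw0 := ne_zero_of_sub_one hw1
  have hwm1 : (gb * (y : F)) ^ m - 1 ∈ O.nonunits := oneUnit_pow hw1 m
  have hwm0 := ne_zero_of_sub_one hwm1
  obtain ⟨eβ, heβ⟩ : ∃ eβ : F, eβ = gb ^ m * e₁ * (e' : F) := ⟨_, rfl⟩
  have heβO : eβ ∈ O := by
    rw [heβ]; exact mul_mem (mul_mem (pow_mem (mem_of_sub_one hgb) m) he₁) he'O
  have hwm : (gb * (y : F)) ^ m = u + algebraMap K F δ * eβ := by
    rw [mul_pow, hyeF, hpow, hu', heβ]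
    field_simp
  have hy'1 : g * (gb * (y : F))⁻¹ - 1 ∈ O.nonunits := oneUnit_mul hg (oneUnit_inv hw1)
  have hy'm : (g * (gb * (y : F))⁻¹) ^ m =
      1 + algebraMap K F δ * ((eα - eβ) * ((gb * (y : F)) ^ m)⁻¹) := by
    rw [mul_pow, inv_pow, hgm]
    have h1 : u = (gb * (y : F)) ^ m - algebraMap K F δ * eβ := by rw [hwm]; ring
    rw [h1]
    field_simp
    ring
  obtain ⟨e₄, he₄, hy'⟩ := eq_one_add_of_pow hmem m hmK hm _ _ hy'1 _
    (mul_mem (sub_mem heα heβO) (inv_mem_of_sub_one hwm1)) hy'm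
  refine ⟨e₄, he₄, ?_, ?_⟩
  · have h : algebraMap K F δ * e₄ = g * (gb * (y : F))⁻¹ - 1 := by rw [hy']; ring
    rw [h]; exact hy'1
  · have hy0 : (y : F) ≠ 0 := ne_zero_of_sub_one hz1
    rw [← hy']
    field_simp

/-- Replacing `w` by `w * (1 + δ e)` changes `∑ h_j w ^ j` by an element of `m_O`, when the `h_j`
are bounded by `c₀` and `δ / c₀ ∈ m_A`. -/
theorem sum_sub_mem (hmem : ∀ a : K, algebraMap K F a ∈ O ↔ a ∈ A) {c₀ δ : K} (hc₀ : c₀ ≠ 0)
    (hδc : δ * c₀⁻¹ ∈ A.nonunits) (m : ℕ) (h : Fin m → F)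
    (hh : ∀ j, algebraMap K F c₀ * h j ∈ O) (w : F) (hw : w ∈ O) (e : F) (he : e ∈ O)
    (hs : algebraMap K F δ * e ∈ O) :
    (∑ j, h j * (w * (1 + algebraMap K F δ * e)) ^ (j : ℕ)) - ∑ j, h j * w ^ (j : ℕ) ∈
      O.nonunits := by
  rw [← Finset.sum_sub_distrib]
  refine sum_mem fun j _ => ?_
  have hc₀F : algebraMap K F c₀ ≠ 0 := by simpa using hc₀
  obtain ⟨q, hq⟩ : ∃ q : F, q = ∑ i ∈ Finset.range (j : ℕ), (1 + algebraMap K F δ * e) ^ i :=
    ⟨_, rfl⟩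
  have hqO : q ∈ O := by
    rw [hq]; exact sum_mem fun i _ => pow_mem (add_mem (one_mem O) hs) i
  have hgeom : q * (algebraMap K F δ * e) = (1 + algebraMap K F δ * e) ^ (j : ℕ) - 1 := by
    have h1 := geom_sum_mul (1 + algebraMap K F δ * e) (j : ℕ)
    rw [← hq] at h1
    rw [← h1]; ring
  have hkey : h j * (w * (1 + algebraMap K F δ * e)) ^ (j : ℕ) - h j * w ^ (j : ℕ) =
      algebraMap K F (δ * c₀⁻¹) * (algebraMap K F c₀ * h j * w ^ (j : ℕ) * q * e) := by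
    rw [mul_pow]
    have h2 : (1 + algebraMap K F δ * e) ^ (j : ℕ) = q * (algebraMap K F δ * e) + 1 := by
      rw [hgeom]; ring
    rw [h2, map_mul, map_inv₀]
    field_simp
    ring
  rw [hkey]
  exact mul_mem_nonunits ((algebraMap_mem_nonunits hmem).mpr hδc)
    (mul_mem (mul_mem (mul_mem (hh j) (pow_mem hw _)) hqO) he)

/-- The pole bound on one disc `D` (`s = 1` on a finite disc, `s = x⁻¹ ^ n` at infinity). -/
theorem disc_step (hmem : ∀ a : K, algebraMap K F a ∈ O ↔ a ∈ A)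
    (hscale : ∀ f : F, f ≠ 0 →
      ∃ c : K, c ≠ 0 ∧ algebraMap K F c * f ∈ O ∧ (algebraMap K F c * f)⁻¹ ∈ O)
    (harch : ∀ a c : K, a ∈ A.nonunits → c ≠ 0 → ∃ n : ℕ, a ^ n * c⁻¹ ∈ A)
    (m : ℕ) (hmK : (m : K) ≠ 0) (hm : ((m : K))⁻¹ ∈ A) (D : Place K F → Prop)
    (u : F) (hu : u - 1 ∈ O.nonunits)
    (hcl : ∃ gb : F, gb - 1 ∈ O.nonunits ∧ ∀ P, D P → (m : ℤ) * P.ord gb = P.ord u)
    (δ c₀ : K) (hδ : δ ≠ 0) (hc₀ : c₀ ≠ 0) (hδc : δ * c₀⁻¹ ∈ A.nonunits)
    (g : F) (hg : g - 1 ∈ O.nonunits) (eα : F) (heα : eα ∈ O)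
    (hgm : g ^ m = u + algebraMap K F δ * eα)
    (h : Fin m → F) (hh : ∀ j, algebraMap K F c₀ * h j ∈ O)
    (hsum : (∑ j, h j * g ^ (j : ℕ)) ∈ O) (s : F) (hsO : s ∈ O) (B : Place K F → ℤ)
    (hdiv : ∀ j : Fin m, h j ≠ 0 → ∀ P, D P →
      (m : ℤ) * B P ≤ (m : ℤ) * P.ord (h j) + ((j : ℕ) : ℤ) * P.ord u)
    (hsB : ∀ P, D P → 0 ≤ P.ord s + B P) :
    ∃ f' : F, (s * f' ∈ O ∧ ∀ P, D P → 0 ≤ P.ord (s * f')) ∧
      (∑ j, h j * g ^ (j : ℕ)) - f' ∈ O.nonunits := by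
  have hm0 : m ≠ 0 := by
    rintro rfl
    exact hmK (by simp)
  obtain ⟨gb, hgb, hgbord⟩ := hcl
  obtain ⟨z, hz1, hzD, e, he, hδe, hgz⟩ :=
    exists_disc_approx hmem hscale harch m hmK hm D u hu gb hgb hgbord δ hδ g hg eα heα hgm
  have hgb0 := ne_zero_of_sub_one hgb
  have hwO : gb * z ∈ O := mul_mem (mem_of_sub_one hgb) (mem_of_sub_one hz1)
  have hdiff : (∑ j, h j * g ^ (j : ℕ)) - ∑ j, h j * (gb * z) ^ (j : ℕ) ∈ O.nonunits := by
    rw [hgz]
    exact sum_sub_mem hmem hc₀ hδc m h hh (gb * z) hwO e he (ValuationSubring.nonunits_subset hδe)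
  have hf'O : (∑ j, h j * (gb * z) ^ (j : ℕ)) ∈ O := by
    have h1 : (∑ j, h j * (gb * z) ^ (j : ℕ)) =
        (∑ j, h j * g ^ (j : ℕ)) - ((∑ j, h j * g ^ (j : ℕ)) - ∑ j, h j * (gb * z) ^ (j : ℕ)) := by
      ring
    rw [h1]
    exact sub_mem hsum (ValuationSubring.nonunits_subset hdiff)
  refine ⟨∑ j, h j * (gb * z) ^ (j : ℕ), ⟨mul_mem hsO hf'O, fun P hP => ?_⟩, hdiff⟩
  rw [ord_nonneg_iff, Finset.mul_sum]
  refine sum_mem fun j _ => ?_
  have h1 : s * (h j * (gb * z) ^ (j : ℕ)) = s * (h j * gb ^ (j : ℕ)) * z ^ (j : ℕ) := by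
    rw [mul_pow]; ring
  rw [h1]
  exact mul_mem (term_mem P hm0 hgb0 (hgbord P hP) (j : ℕ) (h j) s (B P)
    (fun hj0 => hdiv j hj0 P hP) (hsB P hP)) (pow_mem (hzD P hP) _)

/-- `P` lies in the residue disc of `b` for the base function `x` (same body as the skeleton's
`InDisc`). -/
def InDisc (A : ValuationSubring K) (x : F) (b : K) (P : Place K F) : Prop :=
  ∃ c : K, c - b ∈ A.nonunits ∧ 0 < P.ord (x - algebraMap K F c)

/-- `S_b`: Gauss-integral functions without poles on the residue disc of `b` (same body as the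
skeleton's `discRing`). -/
def discRing (A : ValuationSubring K) (O : ValuationSubring F) (x : F) (b : K) : Set F :=
  {f | f ∈ O ∧ ∀ P : Place K F, InDisc A x b P → 0 ≤ P.ord f}

/-- The base function is regular at the places of its discs. -/
theorem InDisc.mem {x : F} {b : K} {P : Place K F} (h : InDisc A x b P) :
    x ∈ P.toValuationSubring := by
  obtain ⟨c, -, hc⟩ := h
  have h1 : x = (x - algebraMap K F c) + algebraMap K F c := by ring
  rw [h1]
  exact add_mem ((ord_nonneg_iff P _).mp hc.le) (P.algebraMap_mem' c)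

/-- **Pole bound** (leaf C5 / L3d of the skeleton), conditional on the clearing lemma for the
base functions `x` (all finite discs) and `x⁻¹` (the disc at infinity).  The divisor condition on
`h j` is guarded by `h j ≠ 0`, as in the skeleton's `DivCond`. -/
theorem approx_mem_disc_core (hA : A ≠ ⊤)
    (harch : ∀ a c : K, a ∈ A.nonunits → c ≠ 0 → ∃ n : ℕ, a ^ n * c⁻¹ ∈ A)
    (hmem : ∀ a : K, algebraMap K F a ∈ O ↔ a ∈ A)
    (hscale : ∀ f : F, f ≠ 0 →
      ∃ c : K, c ≠ 0 ∧ algebraMap K F c * f ∈ O ∧ (algebraMap K F c * f)⁻¹ ∈ O)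
    (x : F) (hxO' : x⁻¹ ∈ O)
    (m : ℕ) (hmK : (m : K) ≠ 0) (hm : ((m : K))⁻¹ ∈ A)
    (hclear : ∀ b ∈ A, ∀ u : F, u - 1 ∈ O.nonunits →
      (∀ P : Place K F, InDisc A x b P → (m : ℤ) ∣ P.ord u) →
      ∃ g : F, g - 1 ∈ O.nonunits ∧
        ∀ P : Place K F, InDisc A x b P → (m : ℤ) * P.ord g = P.ord u)
    (hclear' : ∀ u : F, u - 1 ∈ O.nonunits →
      (∀ P : Place K F, InDisc A x⁻¹ 0 P → (m : ℤ) ∣ P.ord u) →
      ∃ g : F, g - 1 ∈ O.nonunits ∧
        ∀ P : Place K F, InDisc A x⁻¹ 0 P → (m : ℤ) * P.ord g = P.ord u)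
    (u : F) (hu : u - 1 ∈ O.nonunits)
    (hord : ∀ P : Place K F, (m : ℤ) ∣ P.ord u) (n : ℕ) (c₀ : K) (hc₀ : c₀ ≠ 0) :
    ∃ N₁ : ℕ, ∀ N, N₁ ≤ N → ∀ g : F,
      (g - 1 ∈ O.nonunits ∧ ∃ e ∈ O, g ^ m = u + (u - 1) ^ (N + 1) * e) →
      ∀ h : Fin m → F,
        (∀ j : Fin m, h j ≠ 0 → ∀ P : Place K F,
          (m : ℤ) * min 0 ((n : ℤ) * P.ord x) ≤
            (m : ℤ) * P.ord (h j) + ((j : ℕ) : ℤ) * P.ord u) →
        (∀ j, algebraMap K F c₀ * h j ∈ O) → (∑ j, h j * g ^ (j : ℕ)) ∈ O →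
        (∀ b ∈ A, ∃ f' ∈ discRing A O x b, (∑ j, h j * g ^ (j : ℕ)) - f' ∈ O.nonunits) ∧
        ∃ f' : F, x⁻¹ ^ n * f' ∈ discRing A O x⁻¹ 0 ∧
          (∑ j, h j * g ^ (j : ℕ)) - f' ∈ O.nonunits := by
  -- a nonzero element `π` of `m_A`
  obtain ⟨π, hπ0, hπ⟩ : ∃ π : K, π ≠ 0 ∧ π ∈ A.nonunits := by
    have h1 : ∃ a : K, a ∉ A := by
      by_contra hcon
      exact hA (SetLike.ext fun a => ⟨fun _ => ValuationSubring.mem_top a, fun _ => by
        by_contra ha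
        exact hcon ⟨a, ha⟩⟩)
    obtain ⟨a, ha⟩ := h1
    have ha0 : a ≠ 0 := fun h0 => ha (h0 ▸ A.zero_mem)
    exact ⟨a⁻¹, inv_ne_zero ha0, A.inv_mem_nonunits_iff.mpr (Or.inr ha)⟩
  have hδ : π * c₀ ≠ 0 := mul_ne_zero hπ0 hc₀
  have hδc : π * c₀ * c₀⁻¹ ∈ A.nonunits := by
    rw [mul_assoc, mul_inv_cancel₀ hc₀, mul_one]; exact hπ
  obtain ⟨N₁, hN₁⟩ := exists_pow_eq hmem hscale harch hu hδ
  refine ⟨N₁, fun N hN g hg h hdiv hh hsum => ?_⟩
  obtain ⟨hg1, e, he, hge⟩ := hg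
  obtain ⟨e₁, he₁, hpow⟩ := hN₁ (N + 1) (by omega)
  have hgm : g ^ m = u + algebraMap K F (π * c₀) * (e₁ * e) := by
    rw [hge, hpow]; ring
  have heα : e₁ * e ∈ O := mul_mem he₁ he
  constructor
  · intro b hb
    obtain ⟨f', ⟨hf'O, hf'P⟩, hf'⟩ := disc_step hmem hscale harch m hmK hm (InDisc A x b) u hu
      (hclear b hb u hu fun P _ => hord P) (π * c₀) c₀ hδ hc₀ hδc g hg1 (e₁ * e) heα hgm h hh hsum
      1 (one_mem O) (fun P => min 0 ((n : ℤ) * P.ord x)) (fun j hj0 P _ => hdiv j hj0 P)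
      (fun P hP => by
        have h1 : 0 ≤ P.ord x := (ord_nonneg_iff P x).mpr hP.mem
        have h2 : 0 ≤ (n : ℤ) * P.ord x := mul_nonneg (Int.natCast_nonneg n) h1
        rw [P.ord_one, zero_add, min_eq_left h2])
    rw [one_mul] at hf'O
    refine ⟨f', ⟨hf'O, fun P hP => ?_⟩, hf'⟩
    have h1 := hf'P P hP
    rwa [one_mul] at h1
  · obtain ⟨f', ⟨hf'O, hf'P⟩, hf'⟩ := disc_step hmem hscale harch m hmK hm (InDisc A x⁻¹ 0) u hu
      (hclear' u hu fun P _ => hord P) (π * c₀) c₀ hδ hc₀ hδc g hg1 (e₁ * e) heα hgm h hh hsum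
      (x⁻¹ ^ n) (pow_mem hxO' n) (fun P => min 0 ((n : ℤ) * P.ord x)) (fun j hj0 P _ => hdiv j hj0 P)
      (fun P hP => by
        have h1 : 0 ≤ P.ord x⁻¹ := (ord_nonneg_iff P x⁻¹).mpr hP.mem
        rw [P.ord_inv] at h1
        have h2 : (n : ℤ) * P.ord x ≤ 0 :=
          mul_nonpos_of_nonneg_of_nonpos (Int.natCast_nonneg n) (by omega)
        have h3 : P.ord (x⁻¹ ^ n) = -((n : ℤ) * P.ord x) := by
          rw [← zpow_natCast, P.ord_zpow, P.ord_inv]; ring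
        rw [h3, min_eq_right h2]; omega)
    exact ⟨f', ⟨hf'O, hf'P⟩, hf'⟩

end Main

end Fermat.Agent.S18.H38
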