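/-
S18 / wave 4, leaf C1-EXPORTS (helper38): generic facts about the places of a function field in one
variable over an algebraically closed field of characteristic zero, in the shape needed by the
class count (helper29): principal divisors (finitely many zeros and poles, total degree `0`),
places of degree one, the partition of the places into residue discs of a base function `x`
(class map `cls`), and the transfer of disc statements to class statements.

Built on the landed S24 files (`H79/Fib.lean`: fundamental identity, `Residue.lean`: centres).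
-/
import Mathlib
import Fermat.Prelude.Def_AlgebraicCurve_DivisorClassGroup
import Fermat.Agent.S24.H79.Fib
import Fermat.Agent.S24.H52.AddValMore
import Fermat.Agent.S24.Residue
import Fermat.Agent.S18.H74.CoreDefs
import Fermat.Agent.S18.H38.PoleBound

set_option autoImplicit false

open AlgebraicCurve IntermediateField

noncomputable section

namespace Fermat.Agent.S18.H38

variable {K : Type*} [Field K] {F : Type*} [Field F] [Algebra K F]

/-! ### `F` is finite over `K(f)` for every transcendental `f` -/

/-- If `F` is finite over `K(x)`, it is algebraic over `K(f)` for every transcendental `f`. -/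
theorem isAlgebraic_adjoin_of_transcendental (x : F) [FiniteDimensional K⟮x⟯ F] {f : F}
    (hf : Transcendental K f) : Algebra.IsAlgebraic K⟮f⟯ F := by
  have : Algebra.IsAlgebraic (Algebra.adjoin K ({x} : Set F)) F :=
    ⟨Fermat.Agent.S24.H94.isAlgebraic_adjoin x⟩
  have h1 : Algebra.trdeg K F ≤ 1 := by
    have h := Algebra.IsAlgebraic.trdeg_le_cardinalMk K ({x} : Set F)
    simpa using h
  have hind : AlgebraicIndependent K (fun _ : PUnit => f) :=
    algebraicIndependent_unique_type_iff.mpr hf
  have hb : IsTranscendenceBasis K (fun _ : PUnit => f) :=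
    hind.isTranscendenceBasis_of_trdeg_le_of_finite (by simpa using h1)
  have h2 := hb.isAlgebraic_field
  have hr : Set.range (fun _ : PUnit => f) = {f} := Set.range_const
  rwa [hr] at h2

/-- If `F` is finite over `K(x)`, it is finite over `K(f)` for every transcendental `f`. -/
theorem finiteDimensional_adjoin_of_transcendental (x : F) [FiniteDimensional K⟮x⟯ F] {f : F}
    (hf : Transcendental K f) : FiniteDimensional K⟮f⟯ F := by
  have := isAlgebraic_adjoin_of_transcendental x hf
  have : Algebra.EssFiniteType K K⟮x⟯ :=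
    (IntermediateField.essFiniteType_iff).mpr
      (IntermediateField.fg_adjoin_of_finite (Set.finite_singleton x))
  have : Algebra.EssFiniteType K F := Algebra.EssFiniteType.comp K K⟮x⟯ F
  have : Algebra.EssFiniteType K⟮f⟯ F := Algebra.EssFiniteType.of_comp K K⟮f⟯ F
  exact Algebra.finite_of_essFiniteType_of_isAlgebraic

/-! ### Principal divisors -/

theorem adjoin_inv_eq (f : F) : K⟮f⁻¹⟯ = K⟮f⟯ := by
  apply le_antisymm
  · rw [adjoin_simple_le_iff]
    exact inv_mem (mem_adjoin_simple_self K f)
  · rw [adjoin_simple_le_iff]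
    have h := inv_mem (mem_adjoin_simple_self K f⁻¹)
    rwa [inv_inv] at h

/-- The order of a constant is `0`. -/
theorem ord_const (P : Place K F) (a : K) : P.ord (algebraMap K F a) = 0 := by
  rcases eq_or_ne a 0 with rfl | ha
  · simp
  have h1 := Fermat.Agent.S24.H52.ord_nonneg_of_mem P (P.algebraMap_mem' a)
  have h2 := Fermat.Agent.S24.H52.ord_nonneg_of_mem P (P.algebraMap_mem' a⁻¹)
  rw [map_inv₀, P.ord_inv] at h2
  omega

/-- An element of `F` which is algebraic over the algebraically closed field `K` is a constant. -/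
theorem exists_algebraMap_eq_of_isAlgebraic [IsAlgClosed K] {f : F} (hf : IsAlgebraic K f) :
    ∃ a : K, algebraMap K F a = f := by
  have hint : IsIntegral K f := hf.isIntegral
  have hdeg : (minpoly K f).degree = 1 :=
    IsAlgClosed.degree_eq_one_of_irreducible K (minpoly.irreducible hint)
  exact minpoly.mem_range_of_degree_eq_one K f hdeg

/-- **Principal divisors**: a nonzero `f` has finitely many zeros and poles, and its divisor has
total degree `0`. -/
theorem exists_divisor [IsAlgClosed K] [CharZero K] (x : F) [FiniteDimensional K⟮x⟯ F] {f : F}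
    (hf : f ≠ 0) :
    ∃ D : Place K F →₀ ℤ, (∀ P, D P = P.ord f) ∧ (D.sum fun _ n => n) = 0 := by
  classical
  by_cases halg : IsAlgebraic K f
  · obtain ⟨a, rfl⟩ := exists_algebraMap_eq_of_isAlgebraic halg
    exact ⟨0, fun P => by rw [ord_const]; rfl, by simp⟩
  · have htr : Transcendental K f := halg
    have htr' : Transcendental K f⁻¹ := fun h => halg (by simpa using h.inv)
    have hfd := finiteDimensional_adjoin_of_transcendental x htr
    obtain ⟨s, hs, hsum⟩ := Fermat.Agent.S24.H79.exists_finset_ord_pos K⟮f⟯ f htr rfl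
    obtain ⟨s', hs', hsum'⟩ :=
      Fermat.Agent.S24.H79.exists_finset_ord_pos K⟮f⟯ f⁻¹ htr' (adjoin_inv_eq f)
    have hsupp : ∀ P : Place K F, P.ord f ≠ 0 → P ∈ s ∪ s' := by
      intro P hP
      rcases lt_or_gt_of_ne hP with h | h
      · exact Finset.mem_union_right _ ((hs' P).mpr (by rw [P.ord_inv]; omega))
      · exact Finset.mem_union_left _ ((hs P).mpr h)
    refine ⟨Finsupp.onFinset (s ∪ s') (fun P => P.ord f) hsupp, fun P => rfl, ?_⟩
    rw [Finsupp.onFinset_sum hsupp (fun _ => rfl)]
    have hdisj : Disjoint s s' := by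
      rw [Finset.disjoint_left]
      intro P hP hP'
      have h1 := (hs P).mp hP
      have h2 := (hs' P).mp hP'
      rw [P.ord_inv] at h2
      omega
    rw [Finset.sum_union hdisj, hsum]
    have h3 : ∑ P ∈ s', P.ord f = -∑ P ∈ s', P.ord f⁻¹ := by
      rw [← Finset.sum_neg_distrib]
      exact Finset.sum_congr rfl fun P _ => by rw [P.ord_inv, neg_neg]
    rw [h3, hsum']
    ring

/-- A nonzero function has finitely many zeros and poles. -/
theorem finite_ord_ne_zero [IsAlgClosed K] [CharZero K] (x : F) [FiniteDimensional K⟮x⟯ F]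
    {f : F} (hf : f ≠ 0) : {P : Place K F | P.ord f ≠ 0}.Finite := by
  obtain ⟨D, hD, -⟩ := exists_divisor (K := K) x hf
  refine D.support.finite_toSet.subset fun P hP => ?_
  rw [Finset.mem_coe, Finsupp.mem_support_iff, hD]
  exact hP

/-- All places have degree one. -/
theorem deg_one [IsAlgClosed K] (x : F) [FiniteDimensional K⟮x⟯ F] (P : Place K F) :
    P.deg = 1 :=
  Fermat.Agent.S24.deg_eq_one x P

/-! ### The residue field of a valuation ring of an algebraically closed field -/

/-- The residue field of a valuation ring of an algebraically closed field is algebraically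
closed. -/
theorem isAlgClosed_residueField [IsAlgClosed K] (A : ValuationSubring K) :
    IsAlgClosed (IsLocalRing.ResidueField A) := by
  apply IsAlgClosed.of_exists_root
  intro p hpm hpirr
  have hlift : p ∈ Polynomial.lifts (IsLocalRing.residue A) :=
    (Polynomial.mem_lifts p).mpr (Polynomial.map_surjective _ IsLocalRing.residue_surjective p)
  obtain ⟨q, hq, hqdeg, hqm⟩ := Polynomial.lifts_and_degree_eq_and_monic hlift hpm
  have hdeg : (q.map (algebraMap A K)).degree ≠ 0 := by
    rw [Polynomial.degree_map_eq_of_injective (FaithfulSMul.algebraMap_injective A K), hqdeg]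
    exact Polynomial.degree_pos_of_irreducible hpirr |>.ne'
  obtain ⟨y, hy⟩ := IsAlgClosed.exists_root (q.map (algebraMap A K)) hdeg
  have hint : IsIntegral A y := ⟨q, hqm, by rwa [Polynomial.IsRoot, Polynomial.eval_map] at hy⟩
  obtain ⟨a, rfl⟩ := IsIntegrallyClosed.isIntegral_iff.mp hint
  refine ⟨IsLocalRing.residue A a, ?_⟩
  have h0 : q.eval a = 0 := by
    apply FaithfulSMul.algebraMap_injective A K
    rw [Polynomial.IsRoot, Polynomial.eval_map, Polynomial.eval₂_at_apply] at hy
    rw [hy, map_zero]
  rw [← hq, Polynomial.eval_map, Polynomial.eval₂_at_apply, h0, map_zero]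

/-! ### The partition of the places into residue discs -/

section Cls

variable (A : ValuationSubring K) (x : F)

open Classical in
/-- The class of a place: the residue class of the centre `c ∈ A` of `x`, or `none` if `x` has
no centre in `A` (a pole, or a centre outside `A`). -/
def cls (P : Place K F) : Option (IsLocalRing.ResidueField A) :=
  if h : ∃ c : A, 0 < P.ord (x - algebraMap K F (c : K)) then
    some (IsLocalRing.residue A h.choose) else none

/-- The class `some (residue b)` is the residue disc of `b`. -/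
theorem cls_eq_some_iff {b : K} (hb : b ∈ A) (P : Place K F) :
    cls A x P = some (IsLocalRing.residue A ⟨b, hb⟩) ↔ H74.InDisc A x b P := by
  classical
  unfold cls
  constructor
  · intro h
    split_ifs at h with hc
    have h1 := Option.some.inj h
    refine ⟨(hc.choose : K), ?_, hc.choose_spec⟩
    have h2 : hc.choose - ⟨b, hb⟩ ∈ IsLocalRing.maximalIdeal A := by
      rw [← IsLocalRing.residue_eq_zero_iff, map_sub, h1, sub_self]
    exact ValuationSubring.coe_mem_nonunits_iff.mpr h2
  · rintro ⟨c, hcb, hc⟩
    have hcA : c ∈ A := by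
      have h1 : c = (c - b) + b := by ring
      rw [h1]
      exact add_mem (ValuationSubring.nonunits_subset hcb) hb
    have hex : ∃ c : A, 0 < P.ord (x - algebraMap K F (c : K)) := ⟨⟨c, hcA⟩, hc⟩
    rw [dif_pos hex]
    congr 1
    have heq : (hex.choose : K) = c := Fermat.Agent.S24.center_unique x P hex.choose_spec hc
    rw [← sub_eq_zero, ← map_sub, IsLocalRing.residue_eq_zero_iff,
      ← ValuationSubring.coe_mem_nonunits_iff]
    have h2 : ((hex.choose - ⟨b, hb⟩ : A) : K) = c - b := by
      rw [← heq]; rfl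
    rw [h2]
    exact hcb

/-- A place in a disc of `x` is not a pole of `x`, and `x⁻¹` is regular on its discs. -/
theorem mem_of_inDisc {y : F} {b : K} {P : Place K F} (h : H74.InDisc A y b P) :
    y ∈ P.toValuationSubring := by
  obtain ⟨c, -, hc⟩ := h
  have h1 : y = (y - algebraMap K F c) + algebraMap K F c := by ring
  rw [h1]
  exact add_mem ((Fermat.Agent.S24.H52.mem_iff_ord_nonneg P
    (Fermat.Agent.S24.H94.ne_zero_of_ord_pos P hc)).mpr hc.le) (P.algebraMap_mem' c)

/-- A nonzero constant is not in the maximal ideal of a place. -/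
theorem const_not_mem_nonunits (P : Place K F) {a : K} (ha : a ≠ 0) :
    algebraMap K F a ∉ P.toValuationSubring.nonunits := by
  rw [ValuationSubring.mem_nonunits_iff_or]
  rintro (h | h)
  · exact ha (by simpa using h)
  · exact h (by rw [← map_inv₀]; exact P.algebraMap_mem' _)

/-- The class `none` is the disc of `x⁻¹` at `0` (the disc at infinity). -/
theorem cls_eq_none_iff [IsAlgClosed K] [Algebra.IsAlgebraic K⟮x⟯ F] (P : Place K F) :
    cls A x P = none ↔ H74.InDisc A x⁻¹ 0 P := by
  classical
  unfold cls
  constructor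
  · intro h
    split_ifs at h with hc
    rcases Fermat.Agent.S24.exists_center x P with hpole | ⟨c, hc'⟩
    · refine ⟨0, by simp, ?_⟩
      rw [map_zero, sub_zero, P.ord_inv]
      omega
    · have hcA : c ∉ A := fun hcA => hc ⟨⟨c, hcA⟩, hc'⟩
      have hc0 : c ≠ 0 := fun h0 => hcA (h0 ▸ A.zero_mem)
      have hcF : algebraMap K F c ≠ 0 := by simpa using hc0
      refine ⟨c⁻¹, ?_, ?_⟩
      · rw [sub_zero]
        exact A.inv_mem_nonunits_iff.mpr (Or.inr hcA)
      · have hne : x - algebraMap K F c ≠ 0 := Fermat.Agent.S24.H94.ne_zero_of_ord_pos P hc'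
        have hx : x = algebraMap K F c + (x - algebraMap K F c) := by ring
        have hordx : P.ord x = 0 := by
          have h1 := (Fermat.Agent.S24.H52.isAddVal_ord P).map_add_eq_of_lt hcF
            (g := x - algebraMap K F c) (Or.inr (by rw [ord_const]; exact hc'))
          rw [← hx] at h1
          rw [h1.2, ord_const]
        have hx0 : x ≠ 0 := by
          rintro rfl
          rw [zero_sub, (Fermat.Agent.S24.H52.isAddVal_ord P).map_neg _ hcF, ord_const] at hc'
          exact lt_irrefl _ hc'
        have hkey : x⁻¹ - algebraMap K F c⁻¹ =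
            -((x - algebraMap K F c) * (x⁻¹ * algebraMap K F c⁻¹)) := by
          rw [map_inv₀]; field_simp; ring
        have hne2 : x⁻¹ * algebraMap K F c⁻¹ ≠ 0 :=
          mul_ne_zero (inv_ne_zero hx0) (by simpa using hc0)
        rw [hkey, (Fermat.Agent.S24.H52.isAddVal_ord P).map_neg _ (mul_ne_zero hne hne2),
          P.ord_mul hne hne2, P.ord_mul (inv_ne_zero hx0) (by simpa using hc0), P.ord_inv, hordx,
          ord_const]
        simpa using hc'
  · rintro ⟨c', hc'A, hc'⟩
    rw [sub_zero] at hc'A
    rw [dif_neg]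
    rintro ⟨c, hc⟩
    -- `x` and `x⁻¹` are both regular at `P`
    have hxinv : x⁻¹ - algebraMap K F c' ∈ P.toValuationSubring.nonunits :=
      (Fermat.Agent.S24.H94.ord_pos_iff_mem_nonunits P
        (Fermat.Agent.S24.H94.ne_zero_of_ord_pos P hc')).mp hc'
    have hxc : x - algebraMap K F (c : K) ∈ P.toValuationSubring.nonunits :=
      (Fermat.Agent.S24.H94.ord_pos_iff_mem_nonunits P
        (Fermat.Agent.S24.H94.ne_zero_of_ord_pos P hc)).mp hc
    have hxmem : x ∈ P.toValuationSubring := by
      have h1 : x = (x - algebraMap K F (c : K)) + algebraMap K F (c : K) := by ring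
      rw [h1]
      exact add_mem (ValuationSubring.nonunits_subset hxc) (P.algebraMap_mem' _)
    have hx0 : x ≠ 0 := by
      rintro rfl
      rw [inv_zero, zero_sub] at hxinv
      have h1 : algebraMap K F c' ∈ P.toValuationSubring.nonunits := by
        have h2 := neg_mem hxinv
        rwa [neg_neg] at h2
      by_cases hc0 : c' = 0
      · rw [hc0, map_zero, inv_zero, sub_zero] at hc'
        simp at hc'
      · exact const_not_mem_nonunits P hc0 h1
    -- `1 - c c' ∈ m_P`, hence `c c' = 1`
    have hkey : algebraMap K F (1 - (c : K) * c') =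
        x * (x⁻¹ - algebraMap K F c') + algebraMap K F c' * (x - algebraMap K F (c : K)) := by
      rw [map_sub, map_one, map_mul]
      field_simp
      ring
    have hmem : algebraMap K F (1 - (c : K) * c') ∈ P.toValuationSubring.nonunits := by
      rw [hkey]
      refine add_mem ?_ ?_
      · rw [mul_comm]
        exact (ValuationSubring.mem_nonunits_iff_exists_mem_maximalIdeal.mpr
          (by
            obtain ⟨h1, h2⟩ := ValuationSubring.mem_nonunits_iff_exists_mem_maximalIdeal.mp hxinv
            exact ⟨mul_mem h1 hxmem, Ideal.mul_mem_right (⟨x, hxmem⟩ : P.toValuationSubring) _ h2⟩))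
      · exact (ValuationSubring.mem_nonunits_iff_exists_mem_maximalIdeal.mpr
          (by
            obtain ⟨h1, h2⟩ := ValuationSubring.mem_nonunits_iff_exists_mem_maximalIdeal.mp hxc
            exact ⟨mul_mem (P.algebraMap_mem' c') h1,
              Ideal.mul_mem_left _ (⟨algebraMap K F c', P.algebraMap_mem' c'⟩ :
                P.toValuationSubring) h2⟩))
    have h1 : 1 - (c : K) * c' = 0 := by
      by_contra hne
      exact const_not_mem_nonunits P hne hmem
    have hc'0 : c' ≠ 0 := by
      rintro rfl
      simp at h1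
    have hcc : (c : K) = c'⁻¹ := by
      field_simp
      linear_combination -h1
    have h2 : c'⁻¹ ∉ A := by
      rcases A.mem_nonunits_iff_or.mp hc'A with h | h
      · exact absurd h hc'0
      · exact h
    exact h2 (hcc ▸ c.2)

/-- Every value `c ∈ K` of a transcendental base function `x` is taken at some place. -/
theorem exists_place_center [IsAlgClosed K] [CharZero K] (hx : Transcendental K x)
    [FiniteDimensional K⟮x⟯ F] (c : K) : ∃ P : Place K F, 0 < P.ord (x - algebraMap K F c) := by
  have htr : Transcendental K (x - algebraMap K F c) := by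
    intro h
    apply hx
    have h1 : x = (x - algebraMap K F c) + algebraMap K F c := by ring
    rw [h1]
    exact h.add (isAlgebraic_algebraMap c)
  have hE : K⟮x - algebraMap K F c⟯ = K⟮x⟯ := by
    apply le_antisymm
    · rw [adjoin_simple_le_iff]
      exact sub_mem (mem_adjoin_simple_self K x) (IntermediateField.algebraMap_mem _ c)
    · rw [adjoin_simple_le_iff]
      have h1 := add_mem (mem_adjoin_simple_self K (x - algebraMap K F c))
        (IntermediateField.algebraMap_mem _ c)
      rwa [sub_add_cancel] at h1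
  obtain ⟨s, hs, hsum⟩ :=
    Fermat.Agent.S24.H79.exists_finset_ord_pos K⟮x⟯ (x - algebraMap K F c) htr hE
  have hpos : 0 < Module.finrank K⟮x⟯ F := Module.finrank_pos
  have hne : s.Nonempty := by
    rw [Finset.nonempty_iff_ne_empty]
    rintro rfl
    rw [Finset.sum_empty] at hsum
    omega
  obtain ⟨P, hP⟩ := hne
  exact ⟨P, (hs P).mp hP⟩

/-- Every class `some r` is inhabited. -/
theorem exists_cls_eq_some [IsAlgClosed K] [CharZero K] (hx : Transcendental K x)
    [FiniteDimensional K⟮x⟯ F] (r : IsLocalRing.ResidueField A) :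
    ∃ P : Place K F, cls A x P = some r := by
  obtain ⟨⟨b, hb⟩, rfl⟩ := IsLocalRing.residue_surjective r
  obtain ⟨P, hP⟩ := exists_place_center (K := K) x hx b
  exact ⟨P, (cls_eq_some_iff A x hb P).mpr ⟨b, by simp, hP⟩⟩

/-- Infinitely many classes are inhabited. -/
theorem range_cls_infinite [IsAlgClosed K] [CharZero K] (hx : Transcendental K x)
    [FiniteDimensional K⟮x⟯ F] : (Set.range (cls (F := F) A x)).Infinite := by
  have : IsAlgClosed (IsLocalRing.ResidueField A) := isAlgClosed_residueField A
  have h1 : (Set.range (some : IsLocalRing.ResidueField A → Option _)).Infinite :=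
    Set.infinite_range_of_injective (Option.some_injective _)
  refine h1.mono ?_
  rintro _ ⟨r, rfl⟩
  obtain ⟨P, hP⟩ := exists_cls_eq_some A x hx r
  exact ⟨P, hP⟩

/-- The poles of `x` lie in the class `none`. -/
theorem cls_eq_none_of_pole {P : Place K F} (h : P.ord x < 0) : cls A x P = none := by
  classical
  unfold cls
  rw [dif_neg]
  rintro ⟨c, hc⟩
  exact Fermat.Agent.S24.not_center_of_pole x P h _ hc

/-- `x` has no zeros on the class `none`. -/
theorem ord_nonpos_of_cls_eq_none [IsAlgClosed K] [Algebra.IsAlgebraic K⟮x⟯ F] {P : Place K F}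
    (h : cls A x P = none) : P.ord x ≤ 0 := by
  have h1 := mem_of_inDisc A ((cls_eq_none_iff A x P).mp h)
  have h2 := Fermat.Agent.S24.H52.ord_nonneg_of_mem P h1
  rw [P.ord_inv] at h2
  omega

/-- **Clearing, class form**: the clearing lemma on the discs of `x` (with centre in `A`) and on
the disc of `x⁻¹` at `0` gives the clearing lemma on every class. -/
theorem clear_of_discs [IsAlgClosed K] [Algebra.IsAlgebraic K⟮x⟯ F] (O : ValuationSubring F)
    (m : ℕ)
    (hfin : ∀ b ∈ A, ∀ u : F, u - 1 ∈ O.nonunits →
      (∀ P : Place K F, H74.InDisc A x b P → (m : ℤ) ∣ P.ord u) →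
      ∃ g : F, g - 1 ∈ O.nonunits ∧
        ∀ P : Place K F, H74.InDisc A x b P → (m : ℤ) * P.ord g = P.ord u)
    (hinf : ∀ u : F, u - 1 ∈ O.nonunits →
      (∀ P : Place K F, H74.InDisc A x⁻¹ 0 P → (m : ℤ) ∣ P.ord u) →
      ∃ g : F, g - 1 ∈ O.nonunits ∧
        ∀ P : Place K F, H74.InDisc A x⁻¹ 0 P → (m : ℤ) * P.ord g = P.ord u)
    (d : Option (IsLocalRing.ResidueField A)) (u : F) (hu : u - 1 ∈ O.nonunits)
    (hd : ∀ P : Place K F, cls A x P = d → (m : ℤ) ∣ P.ord u) :
    ∃ g : F, g - 1 ∈ O.nonunits ∧
      ∀ P : Place K F, cls A x P = d → (m : ℤ) * P.ord g = P.ord u := by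
  rcases d with _ | r
  · obtain ⟨g, hg, hgP⟩ := hinf u hu (fun P hP => hd P ((cls_eq_none_iff A x P).mpr hP))
    exact ⟨g, hg, fun P hP => hgP P ((cls_eq_none_iff A x P).mp hP)⟩
  · obtain ⟨⟨b, hb⟩, rfl⟩ := IsLocalRing.residue_surjective r
    obtain ⟨g, hg, hgP⟩ := hfin b hb u hu (fun P hP => hd P ((cls_eq_some_iff A x hb P).mpr hP))
    exact ⟨g, hg, fun P hP => hgP P ((cls_eq_some_iff A x hb P).mp hP)⟩

/-- The degree of a divisor on a class, computed on any finite set of places of the class
containing its support there. -/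
theorem mapDomain_cls_apply {𝔇 : Type*} (c : Place K F → 𝔇) (D : Place K F →₀ ℤ) (d : 𝔇)
    (s : Finset (Place K F)) (hs : ∀ P ∈ s, c P = d) (hs' : ∀ P, c P = d → D P ≠ 0 → P ∈ s) :
    Finsupp.mapDomain c D d = ∑ P ∈ s, D P := by
  classical
  rw [Finsupp.mapDomain, Finsupp.sum_apply, Finsupp.sum]
  have h1 : ∀ P ∈ D.support, (Finsupp.single (c P) (D P)) d = if c P = d then D P else 0 :=
    fun P _ => Finsupp.single_apply
  rw [Finset.sum_congr rfl h1, ← Finset.sum_filter]
  refine Finset.sum_subset ?_ ?_
  · intro P hP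
    rw [Finset.mem_filter, Finsupp.mem_support_iff] at hP
    exact hs' P hP.2 hP.1
  · intro P hP hP'
    by_contra h0
    exact hP' (Finset.mem_filter.mpr ⟨Finsupp.mem_support_iff.mpr h0, hs P hP⟩)

/-- **One-units have degree `0` on every class**, from the statement on the discs of `x` (with
centre in `A`) and on the disc of `x⁻¹` at `0`. -/
theorem one_of_discs [IsAlgClosed K] [Algebra.IsAlgebraic K⟮x⟯ F] (O : ValuationSubring F)
    (hfin : ∀ b ∈ A, ∀ y : F, y - 1 ∈ O.nonunits →
      ∃ s : Finset (Place K F), (∀ P ∈ s, H74.InDisc A x b P) ∧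
        (∀ P : Place K F, H74.InDisc A x b P → P.ord y ≠ 0 → P ∈ s) ∧ ∑ P ∈ s, P.ord y = 0)
    (hinf : ∀ y : F, y - 1 ∈ O.nonunits →
      ∃ s : Finset (Place K F), (∀ P ∈ s, H74.InDisc A x⁻¹ 0 P) ∧
        (∀ P : Place K F, H74.InDisc A x⁻¹ 0 P → P.ord y ≠ 0 → P ∈ s) ∧ ∑ P ∈ s, P.ord y = 0)
    (y : F) (hy : y - 1 ∈ O.nonunits) (D : Place K F →₀ ℤ) (hD : ∀ P, D P = P.ord y)
    (d : Option (IsLocalRing.ResidueField A)) : Finsupp.mapDomain (cls A x) D d = 0 := by
  rcases d with _ | r
  · obtain ⟨s, hs1, hs2, hs3⟩ := hinf y hy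
    rw [mapDomain_cls_apply (cls A x) D none s
      (fun P hP => (cls_eq_none_iff A x P).mpr (hs1 P hP))
      (fun P hP hne => hs2 P ((cls_eq_none_iff A x P).mp hP) (by rwa [← hD])),
      Finset.sum_congr rfl fun P _ => hD P, hs3]
  · obtain ⟨⟨b, hb⟩, rfl⟩ := IsLocalRing.residue_surjective r
    obtain ⟨s, hs1, hs2, hs3⟩ := hfin b hb y hy
    rw [mapDomain_cls_apply (cls A x) D _ s
      (fun P hP => (cls_eq_some_iff A x hb P).mpr (hs1 P hP))
      (fun P hP hne => hs2 P ((cls_eq_some_iff A x hb P).mp hP) (by rwa [← hD])),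
      Finset.sum_congr rfl fun P _ => hD P, hs3]

end Cls

/-! ### Consequences of the `Setup` -/

section Setup

variable {A : ValuationSubring K} {O : ValuationSubring F} {x : F}

/-- `x` is a unit of `O`. -/
theorem x_unit_of_setup (hS : H74.Setup K A F O x) : x ∈ O ∧ x⁻¹ ∈ O := by
  have h := hS.gauss Polynomial.X
    (fun i => by rw [Polynomial.coeff_X]; split_ifs; exacts [A.one_mem, A.zero_mem])
    ⟨1, by simp, by simp [A.one_mem]⟩
  simpa using h

/-- The base function of a `Setup` over a nontrivial valuation ring is transcendental. -/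
theorem transcendental_of_setup (hA : A ≠ ⊤) (hS : H74.Setup K A F O x) :
    Transcendental K x := by
  classical
  intro halg
  obtain ⟨π, hπ0, hπ⟩ : ∃ π : K, π ≠ 0 ∧ π ∈ A.nonunits := by
    have h1 : ∃ a : K, a ∉ A := by
      by_contra hcon
      exact hA (SetLike.ext fun a => ⟨fun _ => ValuationSubring.mem_top a, fun _ => by
        by_contra ha
        exact hcon ⟨a, ha⟩⟩)
    obtain ⟨a, ha⟩ := h1
    have ha0 : a ≠ 0 := fun h0 => ha (h0 ▸ A.zero_mem)
    exact ⟨a⁻¹, inv_ne_zero ha0, A.inv_mem_nonunits_iff.mpr (Or.inr ha)⟩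
  obtain ⟨p, hp0, hp⟩ := halg
  have hsupp : p.support.Nonempty := Polynomial.nonempty_support_iff.mpr hp0
  obtain ⟨i, hi, hmax⟩ := p.support.exists_max_image (fun j => A.valuation (p.coeff j)) hsupp
  have hc0 : p.coeff i ≠ 0 := Polynomial.mem_support_iff.mp hi
  have hle : ∀ j, A.valuation (p.coeff j) ≤ A.valuation (p.coeff i) := by
    intro j
    by_cases hj : j ∈ p.support
    · exact hmax j hj
    · rw [Polynomial.notMem_support_iff.mp hj, map_zero]
      exact zero_le
  have hdiv : ∀ j, (p.coeff i)⁻¹ * p.coeff j ∈ A := by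
    intro j
    rw [← A.valuation_le_one_iff, map_mul, map_inv₀]
    exact inv_mul_le_one_of_le₀ (hle j) zero_le
  have hqcoeff : ∀ j, (Polynomial.C (p.coeff i)⁻¹ * p + Polynomial.C π).coeff j =
      (p.coeff i)⁻¹ * p.coeff j + if j = 0 then π else 0 := by
    intro j
    rw [Polynomial.coeff_add, Polynomial.coeff_C_mul, Polynomial.coeff_C]
  have hεA : ∀ j : ℕ, (if j = 0 then π else 0) ∈ A.nonunits := by
    intro j
    split_ifs
    · exact hπ
    · exact A.nonunits.zero_mem
  have h := hS.gauss (Polynomial.C (p.coeff i)⁻¹ * p + Polynomial.C π)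
    (fun j => by
      rw [hqcoeff]
      exact add_mem (hdiv j) (ValuationSubring.nonunits_subset (hεA j)))
    ⟨i, by
      rw [hqcoeff, inv_mul_cancel₀ hc0]
      have h1 : (1 + if i = 0 then π else 0) - 1 ∈ A.nonunits := by
        rw [add_sub_cancel_left]; exact hεA i
      exact ⟨ne_zero_of_sub_one h1, inv_mem_of_sub_one h1⟩⟩
  have hev : Polynomial.aeval x (Polynomial.C (p.coeff i)⁻¹ * p + Polynomial.C π) =
      algebraMap K F π := by
    rw [map_add, map_mul, hp, mul_zero, zero_add, Polynomial.aeval_C]
  rw [hev] at h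
  have h1 : π⁻¹ ∈ A := (hS.mem_iff _).mp (by rw [map_inv₀]; exact h.2)
  rcases A.mem_nonunits_iff_or.mp hπ with h2 | h2
  · exact hπ0 h2
  · exact h2 h1

/-- Principal divisors in a `Setup`. -/
theorem prin_of_setup [IsAlgClosed K] [CharZero K] (hS : H74.Setup K A F O x) {f : F}
    (hf : f ≠ 0) : ∃ D : Place K F →₀ ℤ, (∀ P, D P = P.ord f) ∧ (D.sum fun _ n => n) = 0 :=
  haveI := hS.finite
  exists_divisor x hf

/-- Places have degree one in a `Setup`. -/
theorem deg_one_of_setup [IsAlgClosed K] (hS : H74.Setup K A F O x) (P : Place K F) :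
    P.deg = 1 :=
  haveI := hS.finite
  deg_one x P

/-- Infinitely many classes are inhabited in a `Setup`. -/
theorem range_cls_infinite_of_setup [IsAlgClosed K] [CharZero K] (hA : A ≠ ⊤)
    (hS : H74.Setup K A F O x) : (Set.range (cls (F := F) A x)).Infinite :=
  haveI := hS.finite
  range_cls_infinite A x (transcendental_of_setup hA hS)

/-- The class at infinity in a `Setup`. -/
theorem inf_of_setup [IsAlgClosed K] (hS : H74.Setup K A F O x) :
    ∃ dinf : Option (IsLocalRing.ResidueField A),
      (∀ P : Place K F, P.ord x < 0 → cls A x P = dinf) ∧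
        ∀ P : Place K F, cls A x P = dinf → P.ord x ≤ 0 :=
  haveI := hS.finite
  ⟨none, fun _ h => cls_eq_none_of_pole A x h, fun _ h => ord_nonpos_of_cls_eq_none A x h⟩

end Setup

end Fermat.Agent.S18.H38
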